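-- CELL-M (d) GLUE (helper9): S09 from S12 + S10 + S11 + S13 (the latter three are on main).
-- `s09_of_s12 h12 P` is the frozen S09 statement, given the frozen S12 statement as a hypothesis.
import Fermat.Agent.S10
import Fermat.Agent.S11
import Fermat.Agent.S13

set_option autoImplicit false
open WeierstrassCurve WeierstrassCurve.Affine WeierstrassCurve.Affine.Point
open FreyPackage

namespace Fermat.Agent.CM.Glue

/-- A prime `p` with `5 ≤ p < 17` is one of `5, 7, 11, 13`. -/
theorem prime_lt_seventeen {p : ℕ} (hp : p.Prime) (h5 : 5 ≤ p) (h17 : ¬ 17 ≤ p) :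
    p = 5 ∨ p = 7 ∨ p = 11 ∨ p = 13 := by
  have hlt : p < 17 := by omega
  interval_cases p <;> first | omega | (exfalso; revert hp; decide)

/-- The frozen S09 (`Mazur_Frey`) from the frozen S12 (`frey_no_cofixed_large`) as a hypothesis,
together with S10, S11, S13 (proved on main). -/
theorem s09_of_s12
    (h12 : ∀ P : FreyPackage, 17 ≤ P.p →
      ¬ HasGaloisStableCofixedLine (K := AlgebraicClosure ℚ) ℚ P.freyCurve P.p)
    (P : FreyPackage) :
    GaloisRepIsIrreducible (K := AlgebraicClosure ℚ) ℚ P.freyCurve P.p := by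
  by_contra hred
  have hcof := Fermat.Agent.S13.result P hred
  by_cases h17 : 17 ≤ P.p
  · exact h12 P h17 hcof
  · rcases prime_lt_seventeen P.pp P.hp5 h17 with h | h | h | h
    · exact Fermat.Agent.S10.result P (Or.inl h) hcof
    · exact Fermat.Agent.S10.result P (Or.inr (Or.inl h)) hcof
    · exact Fermat.Agent.S11.result P h hcof
    · exact Fermat.Agent.S10.result P (Or.inr (Or.inr h)) hcof

end Fermat.Agent.CM.Glue
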